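import Fermat.Agent.CFT.Global.GC3.HNT.Model
import Fermat.Agent.CFT.Global.GN.HasseNorm
import Fermat.Agent.CFT.Global.LocalIndex
import Fermat.Agent.Common.PlaceBridgeKummer
import Fermat.Agent.Common.PlaceBridgeSplit

/-!
# CFT / Global / GC3-HNT (c) : the local norm data attached to a model
-/

set_option autoImplicit false
set_option linter.unusedSectionVars false
set_option linter.style.haveILetI false

namespace Fermat.Agent.CFT.Global.HNT

open Fermat.Agent.CFT Fermat.Agent.S14 Finset IsDedekindDomain NumberField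

variable {p : ℕ} [Fact p.Prime] {V : Subgroup GQ} {ζ B : Qb} {K M : Type} [Field K] [NumberField K]
  [Field M] [NumberField M] [Algebra K M] {φ : K →+* Qb} {ψ : M →+* Qb} {ζK y : K} {B' : M}
  {τ' : M ≃ₐ[K] M}

namespace IsModel

lemma apply_φ (hm : IsModel p V ζ B φ ψ ζK y B' τ') {g : GQ} (hg : g ∈ V) (x : K) :
    g (φ x) = φ x :=
  (Bridge.mem_fixer φ).1 (by rw [hm.fixer_eq]; exact hg) x

lemma mem_V (hm : IsModel p V ζ B φ ψ ζK y B' τ') {g : GQ} (hg : ∀ x : K, g (φ x) = φ x) :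
    g ∈ V := by
  rw [← hm.fixer_eq]; exact hg

lemma fixed (hm : IsModel p V ζ B φ ψ ζK y B' τ') {g : GQ} (hg : g ∈ V) (hgB : g B = B) (z : M) :
    g (ψ z) = ψ z := by
  have := hm.compat g hg 0 (by rw [pow_zero, one_mul, hgB]) z
  rwa [pow_zero, AlgEquiv.one_apply] at this

lemma map_norm (hm : IsModel p V ζ B φ ψ ζK y B' τ') (h : Ctx p V ζ B) {τ : GQ} (hτ : τ ∈ V)
    (hτB : τ B = ζ * B) (z : M) :
    φ (Algebra.norm K z) = ∏ i ∈ range p, (τ ^ i) (ψ z) := by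
  rw [← hm.comp, hm.kummer.algebraMap_norm, map_prod]
  exact Finset.prod_congr rfl fun i _ =>
    (hm.compat (τ ^ i) (V.pow_mem hτ i) i (h.pow_apply_one hτ hτB i) z).symm

lemma mem_locGroup (hm : IsModel p V ζ B φ ψ ζK y B' τ') {A : ValuationSubring Qb} {g : GQ} :
    g ∈ Bridge.locGroup φ A ↔ g ∈ A.decompositionSubgroup ℚ ∧ g ∈ V := by
  rw [Bridge.mem_locGroup]
  exact ⟨fun hg => ⟨hg.1, hm.mem_V hg.2⟩, fun hg => ⟨hg.1, hm.apply_φ hg.2⟩⟩

end IsModel

variable {A : ValuationSubring Qb} {ℓ : ℕ} {v : Pl K}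

/-- local `p`-th powers are local norms. -/
lemma isLocNorm_of_locPow (hm : IsModel p V ζ B φ ψ ζK y B' τ') (h : Ctx p V ζ B) (hℓ : ℓ.Prime)
    (hA : A.LiesOverPrime ℓ) (hv : v.asIdeal = Bridge.primeBelow φ A) {x : K} (hx : x ≠ 0)
    (hloc : ∀ n, LocPow p v n x) : IsLocNorm p V ζ B A (φ x) := by
  have hp : p.Prime := Fact.out
  obtain ⟨c, hc, hfix⟩ := (Bridge.exists_root_fixed_iff hℓ hA hv hp hx).2 hloc
  rw [← hc]
  exact isLocNorm_pow h fun g hg hgV => hfix g (hm.mem_locGroup.2 ⟨hg, hgV⟩)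

/-- global norms are local norms. -/
lemma isLocNorm_norm (hm : IsModel p V ζ B φ ψ ζK y B' τ') (h : Ctx p V ζ B) (z : M) :
    IsLocNorm p V ζ B A (φ (Algebra.norm K z)) :=
  isLocNorm_of_forall_gen h fun _ _ hτV hτB =>
    ⟨ψ z, fun _ _ hgV hgB => hm.fixed hgV hgB z, hm.map_norm h hτV hτB z⟩

/-- at a non-split place the decomposition group acts non-trivially on `B`. -/
lemma exists_of_nonSplit (hm : IsModel p V ζ B φ ψ ζK y B' τ') (hℓ : ℓ.Prime)
    (hA : A.LiesOverPrime ℓ) (hv : v.asIdeal = Bridge.primeBelow φ A) (hns : NonSplit M v) :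
    ∃ τ ∈ A.decompositionSubgroup ℚ, τ ∈ V ∧ τ B ≠ B := by
  have hp : p.Prime := Fact.out
  by_contra H
  push Not at H
  haveI := hm.kummer.isGalois
  have hD : ∀ σ ∈ A.decompositionSubgroup ℚ, (∀ x : K, σ (φ x) = φ x) →
      ∀ z : M, σ (ψ z) = ψ z :=
    fun σ hσ hx z => hm.fixed (hm.mem_V hx) (H σ hσ (hm.mem_V hx)) z
  obtain ⟨he, hf⟩ := Bridge.ramificationIdx_inertiaDeg_eq_one hℓ hA hm.comp hD
  let w : Pl M := Bridge.placeBelow ψ hℓ A hA
  have hw : below K w = v := by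
    apply HeightOneSpectrum.ext
    rw [below_asIdeal, hv]
    exact Bridge.primeBelow_under hm.comp
  have h1 := card_fiber_mul_ram_mul_resdeg (K := K) w
  rw [hw, hns, hm.kummer.finrank_eq] at h1
  have h2 : ram K w = 1 := he
  have h3 : resdeg K w = 1 := hf
  rw [h2, h3] at h1
  exact hp.one_lt.ne (by simpa using h1)

/-- the local norm group is proper at a non-split place. -/
lemma exists_not_isLocNorm (hl2 : LocalNonNorm p) (hm : IsModel p V ζ B φ ψ ζK y B' τ')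
    (h : Ctx p V ζ B) (hlev : ∃ U ∈ levAll.carrier, U ≤ V) (hℓ : ℓ.Prime)
    (hA : A.LiesOverPrime ℓ) (hv : v.asIdeal = Bridge.primeBelow φ A) (hns : NonSplit M v) :
    ∃ x : K, x ≠ 0 ∧ ¬ IsLocNorm p V ζ B A (φ x) := by
  have hp : p.Prime := Fact.out
  obtain ⟨τ₀, hτ₀, hτ₀V, hτ₀B⟩ := exists_of_nonSplit hm hℓ hA hv hns
  obtain ⟨τ, hτ, hτV, hτB⟩ := h.exists_gen (A.decompositionSubgroup ℚ)
    (fun H => hτ₀B (H τ₀ hτ₀ hτ₀V))
  obtain ⟨c, hc0, hcfix, hcnot⟩ := hl2 ℓ A V ζ B τ hℓ hA hlev h.prim h.fixζ h.B0 h.char hτ hτV hτB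
  have hb₀ : ((p : K) ^ 2 * (ℓ : K)) ≠ 0 :=
    mul_ne_zero (pow_ne_zero _ (by exact_mod_cast hp.ne_zero)) (by exact_mod_cast hℓ.ne_zero)
  obtain ⟨x, hx0, -, hclose⟩ := Bridge.exists_close_of_fixed' (φ := φ) hℓ hA hc0
    (fun g hg => hcfix g (hm.mem_locGroup.1 hg).1 (hm.mem_locGroup.1 hg).2) hb₀
  have hlt : A.valuation (c / φ x - 1) < A.valuation (ζ - 1) ^ p := by
    refine lt_of_le_of_lt hclose (lt_of_lt_of_le ?_ (Bridge.valuation_natCast_sq_le hp h.prim))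
    rw [map_mul, map_pow, map_natCast, map_natCast, map_mul, map_pow]
    have h1 : A.valuation (ℓ : Qb) < 1 := (ValuationSubring.mem_nonunits_iff A).1 hA
    have h2 : (0 : A.ValueGroup) < A.valuation (p : Qb) ^ 2 := by
      apply pow_pos
      rw [Valuation.pos_iff]
      exact_mod_cast hp.ne_zero
    exact mul_lt_of_lt_one_right h2 h1
  obtain ⟨u, hu, -, hufix⟩ := Bridge.exists_root_fixed hp h.prim hlt
  have hφx0 : φ x ≠ 0 := (map_ne_zero φ).2 hx0
  have hufix' : ∀ g ∈ A.decompositionSubgroup ℚ, g ∈ V → g u = u := fun g hg hgV =>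
    hufix g hg (by rw [map_div₀, hcfix g hg hgV, hm.apply_φ hgV])
  refine ⟨x, hx0, fun hN => ?_⟩
  obtain ⟨b₁, hb₁, hxb⟩ := exists_of_isLocNorm h hN hτ hτV hτB
  apply hcnot
  refine ⟨b₁ * u, fun g hg hgV hgB => by rw [map_mul, hb₁ g hg hgV hgB, hufix' g hg hgV], ?_⟩
  have e1 : c = φ x * u ^ p := by rw [hu]; field_simp
  rw [e1, hxb]
  simp_rw [map_mul]
  rw [Finset.prod_mul_distrib]
  congr 1
  rw [Finset.prod_congr rfl fun i _ =>
    hufix' (τ ^ i) (Subgroup.pow_mem _ hτ i) (V.pow_mem hτV i)]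
  simp

/-- the `ord` dictionary (divisibility by `p`). -/
lemma dvd_ord_of_valuation (hℓ : ℓ.Prime) (hA : A.LiesOverPrime ℓ)
    (hv : v.asIdeal = Bridge.primeBelow φ A) {x : K} (hx : x ≠ 0) {n : ℤ}
    (hval : A.valuation (φ x) = A.valuation (ℓ : Qb) ^ ((p : ℤ) * n)) : (p : ℤ) ∣ ord v x := by
  have h1 := Bridge.valuation_zpow_eq hℓ hv hx
  rw [hval, ← zpow_mul] at h1
  have h2 := Bridge.zpow_valuation_natCast_injective hℓ hA h1
  unfold ord
  rw [← h2, mul_assoc]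
  exact dvd_mul_right _ _

/-- norms at unramified non-split places. -/
lemma dvd_ord_norm (hK : IsKummer p ζK y B' τ') (hvp : ¬ Above p v) (hvy : (p : ℤ) ∣ ord v y)
    (hns : NonSplit M v) {z : M} (hz : z ≠ 0) : (p : ℤ) ∣ ord v (Algebra.norm K z) := by
  obtain ⟨w, rfl⟩ := exists_below_eq (M := M) v
  have hw : tauPl K τ' w = w := by
    obtain ⟨w₀, hw₀⟩ := Finset.card_eq_one.1 hns
    have h1 : w ∈ fiber M (below K w) := mem_fiber.2 rfl
    have h2 : tauPl K τ' w ∈ fiber M (below K w) := mem_fiber.2 (below_tauPl τ' w)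
    rw [hw₀, Finset.mem_singleton] at h1 h2
    rw [h2, h1]
  have h3 := hK.ram_mul_ord_norm hw hz
  have h4 : ram K w = 1 :=
    hK.ram_eq_one_of_unramAt w ((unramAt_iff_of_not_above hK.prim hvp hK.y_ne).2 hvy)
  rw [h4] at h3
  exact ⟨ord w z, by simpa using h3⟩

end Fermat.Agent.CFT.Global.HNT
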