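import Fermat.Agent.CFT.Global.GC3.HNTSpec

/-!
# CFT / Global / GC3-HNT (a) : formal properties of `IsLocNorm`

Pure group theory in `ℚbar`-language: `V ≤ GQ`, `ζ` fixed by `V`, `g B = ζ ^ i B` for `g ∈ V`.
-/

set_option autoImplicit false
set_option linter.unusedSectionVars false

namespace Fermat.Agent.CFT.Global.HNT

open Fermat.Agent.CFT Finset

/-- the standing hypotheses on `(V, ζ, B)`. -/
structure Ctx (p : ℕ) (V : Subgroup GQ) (ζ B : Qb) : Prop where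
  prim : IsPrimitiveRoot ζ p
  fixζ : ∀ g ∈ V, g ζ = ζ
  B0 : B ≠ 0
  char : ∀ g ∈ V, ∃ i : ℕ, g B = ζ ^ i * B

variable {p : ℕ} [Fact p.Prime] {V : Subgroup GQ} {ζ B : Qb}

namespace Ctx

lemma pow_apply (h : Ctx p V ζ B) {τ : GQ} (hτ : τ ∈ V) {k : ℕ} (hk : τ B = ζ ^ k * B) (i : ℕ) :
    (τ ^ i) B = ζ ^ (k * i) * B := by
  induction i with
  | zero => simp
  | succ i ih =>
    rw [pow_succ', AlgEquiv.mul_apply, ih, map_mul, map_pow, h.fixζ τ hτ, hk, Nat.mul_succ, pow_add]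
    ring

lemma pow_apply_one (h : Ctx p V ζ B) {τ : GQ} (hτ : τ ∈ V) (hk : τ B = ζ * B) (i : ℕ) :
    (τ ^ i) B = ζ ^ i * B := by
  have := h.pow_apply hτ (k := 1) (by rwa [pow_one]) i
  rwa [one_mul] at this

/-- two elements of `D ∩ V` with the same action on `B` agree on the fixed field of
`{g ∈ D ∩ V | g B = B}`. -/
lemma apply_eq (D : Subgroup GQ) {g g' : GQ} (hg : g ∈ D) (hgV : g ∈ V) (hg' : g' ∈ D)
    (hgV' : g' ∈ V) (hB : g B = g' B) {b : Qb} (hb : ∀ s ∈ D, s ∈ V → s B = B → s b = b) :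
    g b = g' b := by
  have h1 : (g⁻¹ * g') b = b :=
    hb _ (D.mul_mem (D.inv_mem hg) hg') (V.mul_mem (V.inv_mem hgV) hgV') (by
      rw [AlgEquiv.mul_apply, ← hB]
      exact g.symm_apply_apply B)
  rw [AlgEquiv.mul_apply] at h1
  have h2 := congrArg g h1
  rw [← h2]
  exact (g.apply_symm_apply (g' b))

/-- a generator of the local Galois group. -/
lemma exists_gen (h : Ctx p V ζ B) (D : Subgroup GQ) (hD : ¬ ∀ τ ∈ D, τ ∈ V → τ B = B) :
    ∃ τ ∈ D, τ ∈ V ∧ τ B = ζ * B := by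
  have hp : p.Prime := Fact.out
  push Not at hD
  obtain ⟨τ, hτD, hτV, hτB⟩ := hD
  obtain ⟨i, hi⟩ := h.char τ hτV
  have hpi : ¬ p ∣ i := by
    intro hd
    apply hτB
    rw [hi, (h.prim.pow_eq_one_iff_dvd i).2 hd, one_mul]
  have hcop : Nat.Coprime i p := ((Nat.Prime.coprime_iff_not_dvd hp).2 hpi).symm
  obtain ⟨k, -, hk⟩ := Nat.exists_mul_mod_eq_one_of_coprime hcop hp.one_lt
  refine ⟨τ ^ k, D.pow_mem hτD k, V.pow_mem hτV k, ?_⟩
  rw [h.pow_apply hτV hi k, ← Nat.div_add_mod (i * k) p, hk, pow_add, pow_mul, h.prim.pow_eq_one,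
    one_pow, one_mul, pow_one]

lemma prod_pow_eq (h : Ctx p V ζ B) (D : Subgroup GQ) {τ τ' : GQ} (hτ : τ ∈ D) (hτV : τ ∈ V)
    (hτB : τ B = ζ * B) (hτ' : τ' ∈ D) (hτV' : τ' ∈ V) (hτB' : τ' B = ζ * B) {b : Qb}
    (hb : ∀ s ∈ D, s ∈ V → s B = B → s b = b) :
    ∏ i ∈ range p, (τ ^ i) b = ∏ i ∈ range p, (τ' ^ i) b := by
  refine Finset.prod_congr rfl fun i _ => ?_
  exact apply_eq D (D.pow_mem hτ i) (V.pow_mem hτV i) (D.pow_mem hτ' i) (V.pow_mem hτV' i)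
    (by rw [h.pow_apply_one hτV hτB, h.pow_apply_one hτV' hτB']) hb

end Ctx

variable {A : ValuationSubring Qb}

/-- change of generator in `IsLocNorm`. -/
lemma exists_of_isLocNorm (h : Ctx p V ζ B) {a : Qb} (ha : IsLocNorm p V ζ B A a) {τ : GQ}
    (hτ : τ ∈ A.decompositionSubgroup ℚ) (hτV : τ ∈ V) (hτB : τ B = ζ * B) :
    ∃ b : Qb, (∀ g ∈ A.decompositionSubgroup ℚ, g ∈ V → g B = B → g b = b) ∧
      a = ∏ i ∈ range p, (τ ^ i) b := by
  have hp : p.Prime := Fact.out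
  rcases ha with h1 | ⟨τ', hτ', hτV', hτB', b, hb, hab⟩
  · exfalso
    have h2 := h1 τ hτ hτV
    rw [hτB] at h2
    have h3 : ζ = 1 := mul_right_cancel₀ h.B0 (by rw [h2, one_mul])
    exact h.prim.ne_one hp.one_lt h3
  · exact ⟨b, hb, by rw [hab]; exact h.prod_pow_eq _ hτ' hτV' hτB' hτ hτV hτB hb⟩

lemma isLocNorm_of_gen {a : Qb} {τ : GQ}
    (hτ : τ ∈ A.decompositionSubgroup ℚ) (hτV : τ ∈ V) (hτB : τ B = ζ * B) {b : Qb}
    (hb : ∀ g ∈ A.decompositionSubgroup ℚ, g ∈ V → g B = B → g b = b)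
    (hab : a = ∏ i ∈ range p, (τ ^ i) b) : IsLocNorm p V ζ B A a :=
  Or.inr ⟨τ, hτ, hτV, hτB, b, hb, hab⟩

/-- to prove `IsLocNorm` one may assume given a generator. -/
lemma isLocNorm_of_forall_gen (h : Ctx p V ζ B) {a : Qb}
    (H : ∀ τ ∈ A.decompositionSubgroup ℚ, τ ∈ V → τ B = ζ * B →
      ∃ b : Qb, (∀ g ∈ A.decompositionSubgroup ℚ, g ∈ V → g B = B → g b = b) ∧
        a = ∏ i ∈ range p, (τ ^ i) b) : IsLocNorm p V ζ B A a := by
  by_cases h1 : ∀ τ ∈ A.decompositionSubgroup ℚ, τ ∈ V → τ B = B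
  · exact Or.inl h1
  · obtain ⟨τ, hτ, hτV, hτB⟩ := h.exists_gen _ h1
    obtain ⟨b, hb, hab⟩ := H τ hτ hτV hτB
    exact isLocNorm_of_gen hτ hτV hτB hb hab

lemma isLocNorm_mul (h : Ctx p V ζ B) {a a' : Qb} (ha : IsLocNorm p V ζ B A a)
    (ha' : IsLocNorm p V ζ B A a') : IsLocNorm p V ζ B A (a * a') := by
  refine isLocNorm_of_forall_gen h fun τ hτ hτV hτB => ?_
  obtain ⟨b, hb, hab⟩ := exists_of_isLocNorm h ha hτ hτV hτB
  obtain ⟨b', hb', hab'⟩ := exists_of_isLocNorm h ha' hτ hτV hτB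
  refine ⟨b * b', fun g hg hgV hgB => by rw [map_mul, hb g hg hgV hgB, hb' g hg hgV hgB], ?_⟩
  rw [hab, hab', ← Finset.prod_mul_distrib]
  exact Finset.prod_congr rfl fun i _ => (map_mul _ _ _).symm

lemma isLocNorm_inv (h : Ctx p V ζ B) {a : Qb} (ha : IsLocNorm p V ζ B A a) :
    IsLocNorm p V ζ B A a⁻¹ := by
  refine isLocNorm_of_forall_gen h fun τ hτ hτV hτB => ?_
  obtain ⟨b, hb, hab⟩ := exists_of_isLocNorm h ha hτ hτV hτB
  refine ⟨b⁻¹, fun g hg hgV hgB => by rw [map_inv₀, hb g hg hgV hgB], ?_⟩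
  rw [hab, ← Finset.prod_inv_distrib]
  exact Finset.prod_congr rfl fun i _ => (map_inv₀ _ _).symm

/-- `p`-th powers of elements of the local field are local norms. -/
lemma isLocNorm_pow (h : Ctx p V ζ B) {c : Qb}
    (hc : ∀ g ∈ A.decompositionSubgroup ℚ, g ∈ V → g c = c) : IsLocNorm p V ζ B A (c ^ p) := by
  refine isLocNorm_of_forall_gen h fun τ hτ hτV _ => ?_
  refine ⟨c, fun g hg hgV _ => hc g hg hgV, ?_⟩
  rw [Finset.prod_congr rfl fun i _ => hc (τ ^ i) (Subgroup.pow_mem _ hτ i) (V.pow_mem hτV i)]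
  simp

end Fermat.Agent.CFT.Global.HNT
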