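import Fermat.Agent.CFT.Global.GC3.HNT.LocNorm
import Fermat.Agent.S14.KummerExists
import Fermat.Agent.Common.PlaceBridge

/-!
# CFT / Global / GC3-HNT (b) : a number field model of `F = ℚbar^V` and of `M = F(B)`
-/

set_option autoImplicit false
set_option linter.unusedSectionVars false
set_option linter.style.haveILetI false

namespace Fermat.Agent.CFT.Global.HNT

open Fermat.Agent.CFT Fermat.Agent.S14 Finset

/-- `φ : K → ℚbar` is a model of `ℚbar^V`, `ψ : M → ℚbar` is a model of `ℚbar^V (B)`. -/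
structure IsModel (p : ℕ) (V : Subgroup GQ) (ζ B : Qb) {K M : Type} [Field K] [Field M]
    [Algebra K M] (φ : K →+* Qb) (ψ : M →+* Qb) (ζK y : K) (B' : M) (τ' : M ≃ₐ[K] M) : Prop where
  fixer_eq : Bridge.fixer φ = V
  map_ζ : φ ζK = ζ
  map_y : φ y = B ^ p
  kummer : IsKummer p ζK y B' τ'
  comp : ∀ x, ψ (algebraMap K M x) = φ x
  compat : ∀ g ∈ V, ∀ i : ℕ, g B = ζ ^ i * B → ∀ z, g (ψ z) = ψ ((τ' ^ i) z)

variable {p : ℕ} [Fact p.Prime] {V : Subgroup GQ} {ζ B : Qb}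

/-- an open subgroup is the fixing subgroup of a finite extension. -/
theorem exists_field_of_le (E : IntermediateField ℚ Qb) [FiniteDimensional ℚ E]
    (hE : E.fixingSubgroup ≤ V) :
    ∃ F : IntermediateField ℚ Qb, F ≤ E ∧ F.fixingSubgroup = V := by
  have := isGalois_Qb
  have hopen : IsOpen (V : Set GQ) :=
    Subgroup.isOpen_mono hE (IntermediateField.fixingSubgroup_isOpen E)
  have hclosed : IsClosed (V : Set GQ) := Subgroup.isClosed_of_isOpen V hopen
  refine ⟨IntermediateField.fixedField V, ?_,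
    InfiniteGalois.fixingSubgroup_fixedField (k := ℚ) (K := Qb) ⟨V, hclosed⟩⟩
  intro x hx
  rw [← InfiniteGalois.fixedField_fixingSubgroup (k := ℚ) (K := Qb) E]
  rw [IntermediateField.mem_fixedField_iff] at hx ⊢
  exact fun g hg => hx g (hE hg)

theorem exists_numberField_of_le (E : IntermediateField ℚ Qb) [FiniteDimensional ℚ E]
    (hE : E.fixingSubgroup ≤ V) :
    ∃ (K : Type) (_ : Field K) (_ : NumberField K) (φ : K →+* Qb), Bridge.fixer φ = V ∧
      ∀ x : K, φ x ∈ E := by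
  obtain ⟨F, hFE, hF⟩ := exists_field_of_le E hE
  have hfin : FiniteDimensional ℚ F :=
    FiniteDimensional.of_injective (IntermediateField.inclusion hFE).toLinearMap
      (IntermediateField.inclusion_injective hFE)
  refine ⟨F, inferInstance, { to_charZero := inferInstance, to_finiteDimensional := hfin },
    algebraMap F Qb, ?_, fun x => hFE x.2⟩
  ext g
  rw [← hF, Bridge.mem_fixer, IntermediateField.mem_fixingSubgroup_iff]
  exact ⟨fun h x hx => h ⟨x, hx⟩, fun h x => h x.1 x.2⟩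

theorem exists_model {K : Type} [Field K] [NumberField K] (φ : K →+* Qb)
    (hφ : Bridge.fixer φ = V) (h : Ctx p V ζ B) {σ : GQ} (hσ : σ ∈ V) (hσB : σ B = ζ * B) :
    ∃ (ζK y : K) (M : Type) (_ : Field M) (_ : NumberField M) (_ : Algebra K M) (B' : M)
      (τ' : M ≃ₐ[K] M) (ψ : M →+* Qb), IsModel p V ζ B φ ψ ζK y B' τ' := by
  have hp : p.Prime := Fact.out
  haveI : NeZero p := ⟨hp.ne_zero⟩
  obtain ⟨ζK, hζK⟩ := Bridge.exists_of_fixed φ (y := ζ) (by rw [hφ]; exact h.fixζ)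
  obtain ⟨y, hy⟩ := Bridge.exists_of_fixed φ (y := B ^ p) (by
    rw [hφ]
    intro g hg
    obtain ⟨i, hi⟩ := h.char g hg
    rw [map_pow, hi, mul_pow, ← pow_mul, mul_comm i p, pow_mul, h.prim.pow_eq_one, one_pow,
      one_mul])
  have hprim : IsPrimitiveRoot ζK p :=
    IsPrimitiveRoot.of_map_of_injective (f := φ) (by rw [hζK]; exact h.prim) φ.injective
  have hζ1 : ζ ≠ 1 := h.prim.ne_one hp.one_lt
  have hnp : ¬ IsPPow p y := by
    rintro ⟨c, hc⟩
    have hc0 : φ c ≠ 0 := by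
      intro h0
      have h1 : φ (c ^ p) = B ^ p := by rw [hc, hy]
      rw [map_pow, h0, zero_pow hp.ne_zero] at h1
      exact pow_ne_zero p h.B0 h1.symm
    have h1 : (B / φ c) ^ p = 1 := by
      rw [div_pow, ← hy, ← hc, map_pow, div_self (pow_ne_zero _ hc0)]
    obtain ⟨j, -, hj⟩ := h.prim.eq_pow_of_pow_eq_one h1
    have h2 : B = ζ ^ j * φ c := by rw [hj]; field_simp
    have h3 : σ B = B := by
      have h4 : σ (φ c) = φ c := (Bridge.mem_fixer φ).1 (by rw [hφ]; exact hσ) c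
      rw [h2, map_mul, map_pow, h.fixζ σ hσ, h4]
    rw [hσB] at h3
    exact hζ1 (mul_right_cancel₀ h.B0 (by rw [h3, one_mul]))
  obtain ⟨M, _, _, _, B', τ', hK⟩ := exists_isKummer hprim hnp
  haveI := hK.finiteDimensional
  haveI := hK.isGalois
  letI : Algebra K Qb := φ.toAlgebra
  let ψ₀ : M →ₐ[K] Qb := IsAlgClosed.lift
  let ψ : M →+* Qb := ψ₀.toRingHom
  have hcomp : ∀ x, ψ (algebraMap K M x) = φ x := fun x => ψ₀.commutes x
  refine ⟨ζK, y, M, inferInstance, inferInstance, inferInstance, B', τ', ψ, hφ, hζK, hy, hK, hcomp,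
    ?_⟩
  -- `ψ B' = ζ ^ j B`
  have hB'0 : ψ B' ≠ 0 := (map_ne_zero ψ).2 hK.B_ne_zero
  have h1 : (ψ B' / B) ^ p = 1 := by
    rw [div_pow, ← map_pow, hK.B_pow, hcomp, hy, div_self (pow_ne_zero _ h.B0)]
  obtain ⟨j, -, hj⟩ := h.prim.eq_pow_of_pow_eq_one h1
  have hψB : ψ B' = ζ ^ j * B := by rw [hj]; field_simp [h.B0]
  intro g hg i hgi z
  letI : Algebra M Qb := ψ.toAlgebra
  haveI : IsScalarTower K M Qb := IsScalarTower.of_algebraMap_eq fun x => (hcomp x).symm
  have hgφ : ∀ x : K, g (φ x) = φ x := (Bridge.mem_fixer φ).1 (by rw [hφ]; exact hg)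
  let g' : Qb ≃ₐ[K] Qb := AlgEquiv.ofRingEquiv (f := g.toRingEquiv) hgφ
  have hres : ∀ z : M, ψ (g'.restrictNormal M z) = g (ψ z) :=
    fun z => AlgEquiv.restrictNormal_commutes g' M z
  obtain ⟨i', -, hi'⟩ := hK.gen (g'.restrictNormal M)
  have h2 : ζ ^ i' = ζ ^ i := by
    have h3 := hres B'
    rw [hi', hK.tau_pow_B, map_mul, hcomp, map_pow, hζK, hψB, map_mul, map_pow, h.fixζ g hg,
      hgi] at h3
    have h4 : ζ ^ i' * (ζ ^ j * B) = ζ ^ i * (ζ ^ j * B) := by rw [h3]; ring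
    exact mul_right_cancel₀ (by rw [← hψB]; exact hB'0) h4
  have h3 : τ' ^ i' = τ' ^ i := by
    have hfin : IsOfFinOrder ζ := isOfFinOrder_iff_pow_eq_one.2 ⟨p, hp.pos, h.prim.pow_eq_one⟩
    rw [pow_eq_pow_iff_modEq, hK.orderOf_tau, h.prim.eq_orderOf, ← hfin.pow_eq_pow_iff_modEq]
    exact h2
  rw [← hres, hi', h3]

end Fermat.Agent.CFT.Global.HNT
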